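/-
S34 / Program B' (helper27): the TRANSFER leaf of lead note 22.

* `pullAlpha N r : JZero N →+ JZero (N * r)` — the pull-back of divisor classes along the
  degeneracy embedding `heckeAlphaBar` (the inclusion `F_N ⊂ F_{N r}`);
* `pullAlpha_smul` — it commutes with the arithmetic Galois action;
* `nsmul_eq_zero_of_pullAlpha_eq_zero` — its kernel is killed by the degree
  `d = [F_{N r} : F_N]` (push forward and the norm formula);
* `B1Statement`, `B1Exact` — the binding interface of Program B' (note 22) and its exact form;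
* `transfer` — `B1Exact (N * r) q p → B1Statement N q p`, with exponent loss
  `a = padicValNat p d` independent of `n`.
-/
import Fermat.Prelude.Def_FLTPrelim_Ramification
import Fermat.Prelude.Def_ModularCurve_ArithmeticGalois
import Fermat.Agent.S37.H13.HeckeInputs
import Fermat.Agent.S37.H77.GalPullback
import Fermat.Agent.S37.H53.Descent

set_option autoImplicit false
set_option linter.style.haveILetI false

open AlgebraicCurve ModularCurve

noncomputable section

namespace Fermat.Agent.S34.H27

/-- The algebraic closure of `ℚ`. -/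
abbrev Qb : Type := AlgebraicClosure ℚ

section Pull

variable (N r : ℕ) [NeZero N] [NeZero r]

/-- Principal divisors at level `N r`. -/
theorem hasPD : HasPrincipalDivisors Qb (laurentBaseChange Qb (modularFunctionFieldFull (N * r))) :=
  Fermat.Agent.S37.H13.hasPrincipalDivisors_level N r

attribute [local instance] hasPD

/-- The embedding `α : F_N → F_{N r}`. -/
abbrev alphaHom :
    laurentBaseChange Qb (modularFunctionFieldFull N) →ₐ[Qb]
      laurentBaseChange Qb (modularFunctionFieldFull (N * r)) :=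
  heckeAlphaBar Qb N r

theorem alphaInt : (alphaHom N r).toRingHom.IsIntegral :=
  Fermat.Agent.S37.H87.heckeAlphaBarIntegral N r

theorem alphaFI : FundamentalIdentityAlong Qb (alphaHom N r) (alphaInt N r) :=
  Fermat.Agent.S37.H13.fundamentalIdentityAlong_alpha N r

theorem alphaFin : FiniteAlong Qb (alphaHom N r) :=
  Fermat.Agent.S37.H87.finiteAlong_alpha N r

/-- Pull-back of degree-zero divisors along `α`. -/
def pullDegZero :
    Divisor.degZero (K := Qb) (F := laurentBaseChange Qb (modularFunctionFieldFull N)) →+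
      Divisor.degZero (K := Qb) (F := laurentBaseChange Qb (modularFunctionFieldFull (N * r))) :=
  ((Divisor.pullbackAlong (alphaHom N r) (alphaInt N r)).domRestrict
    (Divisor.degZero (K := Qb) (F := laurentBaseChange Qb (modularFunctionFieldFull N)))).codRestrict
      _ (fun D => Divisor.pullbackAlong_mem_degZero (alphaHom N r) (alphaInt N r) (alphaFI N r) D.2)

theorem coe_pullDegZero
    (D : Divisor.degZero (K := Qb) (F := laurentBaseChange Qb (modularFunctionFieldFull N))) :
    (pullDegZero N r D : Divisor Qb (laurentBaseChange Qb (modularFunctionFieldFull (N * r))))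
      = Divisor.pullbackAlong (alphaHom N r) (alphaInt N r) (D : Divisor Qb _) :=
  rfl

/-- **The pull-back `π^* : J_0(N) → J_0(N r)`** on divisor classes. -/
def pullAlpha : JZero N →+ JZero (N * r) :=
  QuotientAddGroup.map _ _ (pullDegZero N r) (by
    rintro ⟨D, hD0⟩ hD
    simp only [AddSubgroup.mem_addSubgroupOf] at hD ⊢
    exact Divisor.isPrincipal_pullbackAlong (alphaHom N r) (alphaInt N r) hD)

theorem pullAlpha_mk
    (D : Divisor.degZero (K := Qb) (F := laurentBaseChange Qb (modularFunctionFieldFull N))) :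
    pullAlpha N r (Pic0.mk D) = Pic0.mk (pullDegZero N r D) :=
  rfl

/-- `π^*` commutes with the arithmetic Galois action. -/
theorem pullAlpha_smul (σ : Qb ≃ₐ[ℚ] Qb) (x : JZero N) :
    pullAlpha N r (σ • x) = σ • pullAlpha N r x := by
  obtain ⟨D, rfl⟩ := Pic0.mk_surjective x
  rw [galois_smul_pic0_def, galois_smul_pic0_def, SemilinearAut.pic0_smul_mk, pullAlpha_mk,
    pullAlpha_mk, SemilinearAut.pic0_smul_mk]
  refine congrArg Pic0.mk (Subtype.ext ?_)
  rw [coe_pullDegZero, SemilinearAut.coe_degZeroSMulHom, SemilinearAut.coe_degZeroSMulHom,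
    coe_pullDegZero]
  exact Fermat.Agent.S37.H77.pullbackAlong_smul (alphaHom N r) (alphaInt N r)
    (arithmeticGalois (modularFunctionFieldFull N) σ)
    (arithmeticGalois (modularFunctionFieldFull (N * r)) σ)
    (Fermat.Agent.S37.H77.intertwines_alpha N r σ) _

/-- The degree `[F_{N r} : F_N]`. -/
def degAlpha : ℕ := finrankAlong Qb (alphaHom N r)

theorem degAlpha_pos : 0 < degAlpha N r := by
  have h := Fermat.Agent.S37.H87.finrankAlong_alpha N r
  rcases Nat.eq_zero_or_pos (degAlpha N r) with h0 | h0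
  · exfalso
    have h0' : finrankAlong Qb (heckeAlphaBar Qb N r) = 0 := h0
    rw [h0', zero_mul] at h
    exact absurd h.symm (Fermat.Agent.S18.H87.dedekindPsi_pos (N * r)).ne'
  · exact h0

theorem degAlpha_prime (hr : r.Prime) (hrN : ¬ r ∣ N) : degAlpha N r = r + 1 :=
  Fermat.Agent.S37.H87.finrankAlong_alpha_prime N r hr hrN

/-- The kernel of `π^*` is killed by the degree. -/
theorem nsmul_eq_zero_of_pullAlpha_eq_zero (x : JZero N) (hx : pullAlpha N r x = 0) :
    degAlpha N r • x = 0 := by
  obtain ⟨D, rfl⟩ := Pic0.mk_surjective x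
  rw [pullAlpha_mk] at hx
  have h1 : Divisor.pullbackAlong (alphaHom N r) (alphaInt N r) (D : Divisor Qb _) ∈
      Divisor.principal (K := Qb)
        (F := laurentBaseChange Qb (modularFunctionFieldFull (N * r))) := by
    have := (QuotientAddGroup.eq_zero_iff (pullDegZero N r D)).mp hx
    simpa only [AddSubgroup.mem_addSubgroupOf, coe_pullDegZero] using this
  have h2 := Fermat.Agent.S37.H53.nsmul_mem_principal_of_pullbackAlong (alphaHom N r)
    (alphaInt N r) (alphaFin N r) h1
  have h3 : degAlpha N r • Pic0.mk D = Pic0.mk (degAlpha N r • D) := rfl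
  rw [h3]
  refine (QuotientAddGroup.eq_zero_iff _).mpr ?_
  rw [AddSubgroup.mem_addSubgroupOf, AddSubgroup.coe_nsmul]
  exact h2

end Pull

/-- **Binding interface of Program B'** (lead note 22): on `J_0(N)[p^∞]` the inertia at `q`
satisfies `(τ - 1)^2 = 0` up to a bounded power of `p`. -/
def B1Statement (N q p : ℕ) : Prop :=
  ∃ a : ℕ, ∀ (n : ℕ) (A : ValuationSubring Qb), A.LiesOverPrime q →
    ∀ τ ∈ A.inertiaSubgroupIn ℚ, ∀ x : JZero N, p ^ n • x = 0 →
      p ^ a • (τ • τ • x - 2 • τ • x + x) = 0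

/-- The exact form (`a = 0`) of `B1Statement`. -/
def B1Exact (N q p : ℕ) : Prop :=
  ∀ (n : ℕ) (A : ValuationSubring Qb), A.LiesOverPrime q →
    ∀ τ ∈ A.inertiaSubgroupIn ℚ, ∀ x : JZero N, p ^ n • x = 0 →
      τ • τ • x - 2 • τ • x + x = 0

theorem B1Exact.b1Statement {N q p : ℕ} (h : B1Exact N q p) : B1Statement N q p :=
  ⟨0, fun n A hA τ hτ x hx => by rw [pow_zero, one_smul]; exact h n A hA τ hτ x hx⟩

/-- Elementary: an element killed by `d ≠ 0` and by `p ^ n` is killed by `p ^ v_p(d)`. -/
theorem pow_padicValNat_smul_eq_zero {M : Type*} [AddCommGroup M] {p d n : ℕ} (hp : p.Prime)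
    (hd : d ≠ 0) (z : M) (h1 : d • z = 0) (h2 : p ^ n • z = 0) :
    p ^ padicValNat p d • z = 0 := by
  haveI : Fact p.Prime := ⟨hp⟩
  obtain ⟨e, he⟩ := pow_padicValNat_dvd (p := p) (n := d)
  have hcop : Nat.Coprime e (p ^ n) := by
    refine Nat.Coprime.pow_right n ?_
    rw [Nat.coprime_comm, Nat.Prime.coprime_iff_not_dvd hp]
    intro hpe
    have : p ^ (padicValNat p d + 1) ∣ d := by
      rw [pow_succ]
      obtain ⟨f, rfl⟩ := hpe
      exact ⟨f, he.trans (by ring)⟩
    exact pow_succ_padicValNat_not_dvd hd this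
  -- Bezout: u e + v p^n = 1 over ℤ
  have hb : IsCoprime (e : ℤ) ((p ^ n : ℕ) : ℤ) := Nat.isCoprime_iff_coprime.mpr hcop
  obtain ⟨u, v, huv⟩ := hb
  have e1 : ((e : ℤ) * (p ^ padicValNat p d : ℕ)) • z = 0 := by
    rw [← Nat.cast_mul, natCast_zsmul, mul_comm, ← he]
    exact h1
  have e2 : (((p ^ n : ℕ) : ℤ) * (p ^ padicValNat p d : ℕ)) • z = 0 := by
    rw [← Nat.cast_mul, natCast_zsmul, mul_comm, mul_smul, h2, smul_zero]
  have e3 : ((p ^ padicValNat p d : ℕ) : ℤ) • z = 0 := by
    calc ((p ^ padicValNat p d : ℕ) : ℤ) • z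
        = ((u * e + v * ((p ^ n : ℕ) : ℤ)) * (p ^ padicValNat p d : ℕ)) • z := by
          rw [huv, one_mul]
      _ = u • (((e : ℤ) * (p ^ padicValNat p d : ℕ)) • z)
            + v • ((((p ^ n : ℕ) : ℤ) * (p ^ padicValNat p d : ℕ)) • z) := by
          rw [← mul_smul, ← mul_smul, ← add_smul]
          congr 1
          ring
      _ = 0 := by rw [e1, e2, smul_zero, smul_zero, add_zero]
  rwa [natCast_zsmul] at e3

/-- `x ↦ τ τ x - 2 τ x + x` preserves `p ^ n`-torsion. -/
theorem inertiaPoly_torsion {N p n : ℕ} (τ : Qb ≃ₐ[ℚ] Qb) (x : JZero N) (hx : p ^ n • x = 0) :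
    p ^ n • (τ • τ • x - 2 • τ • x + x) = 0 := by
  let T : JZero N →+ JZero N := DistribSMul.toAddMonoidHom (JZero N) τ
  let φ : JZero N →+ JZero N := T.comp T - 2 • T + AddMonoidHom.id _
  have h : τ • τ • x - 2 • τ • x + x = φ x := rfl
  rw [h, ← map_nsmul, hx, map_zero]

/-- **TRANSFER** (lead note 22 §2): the exact statement at level `N r` gives the binding
statement at level `N`, with exponent loss `v_p([F_{N r} : F_N])` (`= v_p(r + 1)` for a prime
`r ∤ N`). No hypothesis on `r`. -/
theorem transfer (N r q p : ℕ) [NeZero N] [NeZero r] (hp : p.Prime)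
    (h : B1Exact (N * r) q p) : B1Statement N q p := by
  refine ⟨padicValNat p (degAlpha N r), fun n A hA τ hτ x hx => ?_⟩
  set z : JZero N := τ • τ • x - 2 • τ • x + x with hz
  have hπx : p ^ n • pullAlpha N r x = 0 := by
    rw [← map_nsmul, hx, map_zero]
  have hπz : pullAlpha N r z = 0 := by
    have := h n A hA τ hτ (pullAlpha N r x) hπx
    rw [hz, map_add, map_sub, map_nsmul, pullAlpha_smul, pullAlpha_smul]
    exact this
  have h1 : degAlpha N r • z = 0 := nsmul_eq_zero_of_pullAlpha_eq_zero N r z hπz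
  have h2 : p ^ n • z = 0 := inertiaPoly_torsion τ x hx
  exact pow_padicValNat_smul_eq_zero hp (degAlpha_pos N r).ne' z h1 h2

/-- TRANSFER with the value of the exponent loss: for a prime `r ∤ N`, `a = v_p(r + 1)`. -/
theorem transfer_prime (N r q p : ℕ) [NeZero N] (hr : r.Prime) (hrN : ¬ r ∣ N) (hp : p.Prime)
    (h : B1Exact (N * r) q p) :
    ∀ (n : ℕ) (A : ValuationSubring Qb), A.LiesOverPrime q →
      ∀ τ ∈ A.inertiaSubgroupIn ℚ, ∀ x : JZero N, p ^ n • x = 0 →
        p ^ padicValNat p (r + 1) • (τ • τ • x - 2 • τ • x + x) = 0 := by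
  haveI : NeZero r := ⟨hr.ne_zero⟩
  intro n A hA τ hτ x hx
  set z : JZero N := τ • τ • x - 2 • τ • x + x with hz
  have hπx : p ^ n • pullAlpha N r x = 0 := by
    rw [← map_nsmul, hx, map_zero]
  have hπz : pullAlpha N r z = 0 := by
    have := h n A hA τ hτ (pullAlpha N r x) hπx
    rw [hz, map_add, map_sub, map_nsmul, pullAlpha_smul, pullAlpha_smul]
    exact this
  have h1 : (r + 1) • z = 0 := by
    rw [← degAlpha_prime N r hr hrN]
    exact nsmul_eq_zero_of_pullAlpha_eq_zero N r z hπz
  have h2 : p ^ n • z = 0 := inertiaPoly_torsion τ x hx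
  exact pow_padicValNat_smul_eq_zero hp (Nat.succ_ne_zero r) z h1 h2

end Fermat.Agent.S34.H27
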