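/-
S34 / Program B' (helper27): the geometric target and the reduction of the binding interface
`B1Statement N q p` (all levels) to it.

* `GeoTarget` — the exact statement (`a = 0`) at the levels `M` divisible by an auxiliary prime
  `r ≡ 11 mod 12` (so that `Γ₀(M)` has no elliptic element), `q ∥ M`, `q ≠ p`;
* `exists_aux_prime` — Dirichlet: an auxiliary prime `r ≡ 11 mod 12` above any bound;
* `b1Statement_of_geoTarget` — `GeoTarget → B1Statement N q p` for all `N` with `q ∥ N`,
  `q ≠ p` (TRANSFER along `F_N ⊂ F_{N r}`).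
-/
import Mathlib.NumberTheory.LSeries.PrimesInAP
import Fermat.Agent.S34.H27.Transfer

set_option autoImplicit false
set_option linter.style.haveILetI false

namespace Fermat.Agent.S34.H27

/-- **The geometric target of Program B'**: the exact statement `(τ - 1)² = 0` on
`J_0(M)[p ^ n]` for `τ` in an inertia group at `q`, at every level `M` with `q ∥ M`, `q ≠ p`,
which is divisible exactly once by an auxiliary prime `r ≡ 11 mod 12`, `r ∉ {q, p}`, which may
moreover be assumed large (`M / r + q + p < r`). -/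
def GeoTarget : Prop :=
  ∀ (M q p r : ℕ), 0 < M → q.Prime → p.Prime → q ≠ p → q ∣ M → ¬ q ^ 2 ∣ M →
    r.Prime → r % 12 = 11 → r ∣ M → ¬ r ^ 2 ∣ M → r ≠ q → r ≠ p → M / r + q + p < r →
    B1Exact M q p

/-- Dirichlet: there is a prime `r ≡ 11 mod 12` above any bound. -/
theorem exists_aux_prime (n : ℕ) : ∃ r : ℕ, n < r ∧ r.Prime ∧ r % 12 = 11 := by
  obtain ⟨r, hr, hrp, hmod⟩ :=
    Nat.forall_exists_prime_gt_and_modEq n (q := 12) (a := 11) (by norm_num) (by norm_num)
  exact ⟨r, hr, hrp, hmod⟩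

/-- **Reduction to the geometric target**: `GeoTarget` gives the binding interface
`B1Statement N q p` at every level `N` with `q ∥ N`, `q ≠ p`. -/
theorem b1Statement_of_geoTarget (h : GeoTarget) (N q p : ℕ) [NeZero N] (hq : q.Prime)
    (hp : p.Prime) (hqp : q ≠ p) (hqN : q ∣ N) (hq2 : ¬ q ^ 2 ∣ N) : B1Statement N q p := by
  obtain ⟨r, hrgt, hr, hr12⟩ := exists_aux_prime (N + q + p)
  haveI : NeZero r := ⟨hr.ne_zero⟩
  have hNpos : 0 < N := Nat.pos_of_ne_zero (NeZero.ne N)
  have hrN : ¬ r ∣ N := fun hd => by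
    have := Nat.le_of_dvd hNpos hd
    omega
  have hrq : r ≠ q := by omega
  have hrp : r ≠ p := by omega
  have hcop : Nat.Coprime (q ^ 2) r :=
    Nat.Coprime.pow_left 2 ((Nat.coprime_primes hq hr).mpr (Ne.symm hrq))
  have hcop' : Nat.Coprime (r ^ 2) N := by
    refine Nat.Coprime.pow_left 2 ?_
    exact (Nat.Prime.coprime_iff_not_dvd hr).mpr hrN
  refine transfer N r q p hp (h (N * r) q p r (Nat.mul_pos hNpos hr.pos) hq hp hqp
    (Dvd.dvd.mul_right hqN r) ?_ hr hr12 (dvd_mul_left r N) ?_ hrq hrp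
    (by rw [Nat.mul_div_cancel N hr.pos]; exact hrgt))
  · intro hd
    exact hq2 (hcop.dvd_of_dvd_mul_right hd)
  · intro hd
    have h1 : r ^ 2 ∣ r := hcop'.dvd_of_dvd_mul_left hd
    have h2 := Nat.le_of_dvd hr.pos h1
    have h3 : r < r ^ 2 := by
      have := hr.two_le
      nlinarith
    omega

end Fermat.Agent.S34.H27
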