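/-
S34 / Program B' (helper27): the geometric target, second form.

`GeoTarget2` has the same conclusion as `GeoTarget` (`B1Exact M q p`) under MORE hypotheses on
the level `M`, all supplied for free by the reduction: besides the auxiliary prime
`r ≡ 11 mod 12` (`r ∥ M`, `r ∉ {q, p}`, `r` large), the level is divisible by `2` when `q ≠ 2`
and by `3` when `q ≠ 3` (so that the Hauptmodul charts of the landed smooth-chart package are
available at the good level `M / q` for `q ∈ {2, 3}`).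

* `b1Statement_of_geoTarget2 : GeoTarget2 → B1Statement N q p` for all `N` with `q ∥ N`, `q ≠ p`;
* `geoTarget2_of_geoTarget : GeoTarget → GeoTarget2`.
-/
import Fermat.Agent.S34.H27.GeoTarget

set_option autoImplicit false
set_option linter.style.haveILetI false

namespace Fermat.Agent.S34.H27

/-- **The geometric target of Program B', second form**: `B1Exact M q p` at the levels `M` with
`q ∥ M`, `q ≠ p`, an auxiliary prime `r ≡ 11 mod 12`, `r ∥ M`, `r ∉ {q, p}`, `r` large, and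
`2 ∣ M` unless `q = 2`, `3 ∣ M` unless `q = 3`. -/
def GeoTarget2 : Prop :=
  ∀ (M q p r : ℕ), 0 < M → q.Prime → p.Prime → q ≠ p → q ∣ M → ¬ q ^ 2 ∣ M →
    r.Prime → r % 12 = 11 → r ∣ M → ¬ r ^ 2 ∣ M → r ≠ q → r ≠ p → M / r + q + p < r →
    (q ≠ 2 → 2 ∣ M) → (q ≠ 3 → 3 ∣ M) → B1Exact M q p

theorem geoTarget2_of_geoTarget (h : GeoTarget) : GeoTarget2 :=
  fun M q p r hM hq hp hqp hqM hq2 hr hr12 hrM hr2 hrq hrp hbig _ _ =>
    h M q p r hM hq hp hqp hqM hq2 hr hr12 hrM hr2 hrq hrp hbig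

/-- The auxiliary factor: `2` unless `q = 2`, times `3` unless `q = 3`. -/
def auxE (q : ℕ) : ℕ := (if q = 2 then 1 else 2) * (if q = 3 then 1 else 3)

theorem auxE_pos (q : ℕ) : 0 < auxE q := by
  unfold auxE
  split_ifs <;> norm_num

theorem auxE_le (q : ℕ) : auxE q ≤ 6 := by
  unfold auxE
  split_ifs <;> norm_num

theorem two_dvd_auxE {q : ℕ} (h : q ≠ 2) : 2 ∣ auxE q := by
  unfold auxE
  rw [if_neg h]
  exact dvd_mul_right 2 _

theorem three_dvd_auxE {q : ℕ} (h : q ≠ 3) : 3 ∣ auxE q := by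
  unfold auxE
  rw [if_neg h]
  exact dvd_mul_left 3 _

theorem coprime_auxE {q : ℕ} (hq : q.Prime) : Nat.Coprime q (auxE q) := by
  rw [Nat.Prime.coprime_iff_not_dvd hq]
  intro hd
  have hle : q ≤ 6 := (Nat.le_of_dvd (auxE_pos q) hd).trans (auxE_le q)
  have h2 := hq.two_le
  interval_cases q
  · exact absurd hd (by decide)
  · exact absurd hd (by decide)
  · exact absurd hq (by norm_num)
  · exact absurd hd (by decide)
  · exact absurd hq (by norm_num)

/-- **Reduction to the geometric target, second form.** -/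
theorem b1Statement_of_geoTarget2 (h : GeoTarget2) (N q p : ℕ) [NeZero N] (hq : q.Prime)
    (hp : p.Prime) (hqp : q ≠ p) (hqN : q ∣ N) (hq2 : ¬ q ^ 2 ∣ N) : B1Statement N q p := by
  obtain ⟨r, hrgt, hr, hr12⟩ := exists_aux_prime (N * 6 + q + p)
  have hNpos : 0 < N := Nat.pos_of_ne_zero (NeZero.ne N)
  have hepos := auxE_pos q
  have hele := auxE_le q
  haveI : NeZero (auxE q * r) := ⟨(Nat.mul_pos hepos hr.pos).ne'⟩
  have hNe : N * auxE q ≤ N * 6 := Nat.mul_le_mul_left N hele
  have hrNe : ¬ r ∣ N * auxE q := fun hd => by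
    have := Nat.le_of_dvd (Nat.mul_pos hNpos hepos) hd
    omega
  have hrq : r ≠ q := by omega
  have hrp : r ≠ p := by omega
  have hqr : Nat.Coprime q r := (Nat.coprime_primes hq hr).mpr (Ne.symm hrq)
  have hcop : Nat.Coprime (q ^ 2) (auxE q * r) :=
    Nat.Coprime.pow_left 2 (Nat.Coprime.mul_right (coprime_auxE hq) hqr)
  have hcop' : Nat.Coprime (r ^ 2) (N * auxE q) :=
    Nat.Coprime.pow_left 2 ((Nat.Prime.coprime_iff_not_dvd hr).mpr hrNe)
  have hM : N * (auxE q * r) = N * auxE q * r := (mul_assoc _ _ _).symm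
  refine transfer N (auxE q * r) q p hp (h (N * (auxE q * r)) q p r
    (Nat.mul_pos hNpos (Nat.mul_pos hepos hr.pos)) hq hp hqp (Dvd.dvd.mul_right hqN _) ?_ hr hr12
    ⟨N * auxE q, by rw [hM, mul_comm]⟩ ?_ hrq hrp ?_ ?_ ?_)
  · intro hd
    exact hq2 (hcop.dvd_of_dvd_mul_right hd)
  · intro hd
    rw [hM] at hd
    have h1 : r ^ 2 ∣ r := hcop'.dvd_of_dvd_mul_left hd
    have h2 := Nat.le_of_dvd hr.pos h1
    have h3 : r < r ^ 2 := by
      have := hr.two_le
      nlinarith
    omega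
  · rw [hM, Nat.mul_div_cancel _ hr.pos]
    omega
  · intro h2
    exact Dvd.dvd.mul_left (Dvd.dvd.mul_right (two_dvd_auxE h2) r) N
  · intro h3
    exact Dvd.dvd.mul_left (Dvd.dvd.mul_right (three_dvd_auxE h3) r) N

end Fermat.Agent.S34.H27
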