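/-
S34 / Program B' (helper27): the skeleton root in its second form.

`H30.geoTarget_of_leaves` needs the model at ALL levels satisfying `H30.LevelHyp`.  For
`q ∈ {2, 3}` the landed smooth-chart package needs the good level `M / q` to be divisible by `2`
(resp. `3`); the reduction `H27.b1Statement_of_geoTarget2` supplies this for free.  So the model
is only needed under the stronger level hypothesis `LevelHyp2`:

* `LevelHyp2 M q p r := H30.LevelHyp M q p r ∧ (q ≠ 2 → 2 ∣ M) ∧ (q ≠ 3 → 3 ∣ M)`;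
* `ModelStatement2` : `H30.ModelStatement` with `LevelHyp2` in place of `LevelHyp` (WEAKER leaf);
* `modelStatement2_of_modelStatement : H30.ModelStatement → ModelStatement2`;
* `kummerAt_of_leaves2`, `geoTarget2_of_leaves : DictStatement → LocalAbsStatement →
  ModelStatement2 → H27.GeoTarget2`;
* `b1Statement_of_leaves2` : the binding interface `B1Statement N q p` of the S34 top from the
  three leaves.
-/
import Fermat.Agent.S34.H30.Skeleton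
import Fermat.Agent.S34.H27.GeoTarget2

set_option autoImplicit false
set_option linter.style.haveILetI false

open AlgebraicCurve ModularCurve

noncomputable section

namespace Fermat.Agent.S34.H27

open Fermat.Agent.S34.H30 Fermat.Agent.S18.H47 Fermat.Agent.S18.H86

/-- The hypotheses on the level in `GeoTarget2`. -/
def LevelHyp2 (M q p r : ℕ) : Prop :=
  LevelHyp M q p r ∧ (q ≠ 2 → 2 ∣ M) ∧ (q ≠ 3 → 3 ∣ M)

/-- **Leaf, the model, second form**: `H30.ModelStatement` at the levels satisfying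
`LevelHyp2` only. -/
def ModelStatement2 : Prop :=
  ∀ M q p r : ℕ, LevelHyp2 M q p r →
    ∀ (n : ℕ) (A : ValuationSubring Qb), A.LiesOverPrime q → ∀ τ ∈ A.inertiaSubgroupIn ℚ,
      ∀ u : FF M, u ≠ 0 → (∀ v : Place Qb (FF M), ((p ^ n : ℕ) : ℤ) ∣ v.ord u) →
        ∃ D : ChartData M, D.Good (p ^ n) (gal M τ) ∧ ∃ u₀ : D.F₀, D.ι u₀ = u ∧
          (∀ x : Ideal ↥D.C₁, x.IsMaximal → algebraMap D.A₀ ↥D.C₁ D.ϖ ∈ x →
            HLoc D.ϖ (p ^ n) D.C₁ x u₀) ∧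
          (∀ x : Ideal ↥D.C₂, x.IsMaximal → algebraMap D.A₀ ↥D.C₂ D.ϖ ∈ x →
            HLoc D.ϖ (p ^ n) D.C₂ x u₀)

theorem modelStatement2_of_modelStatement (h : ModelStatement) : ModelStatement2 :=
  fun M q p r hL => h M q p r hL.1

/-- The function-level target from (L3) [proved], (L4) and the model, at the levels satisfying
`LevelHyp2` (same proof as `H30.kummerAt_of_leaves`). -/
theorem kummerAt_of_leaves2 (hloc : LocalAbsStatement) (hmodel : ModelStatement2)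
    (M q p r : ℕ) (hL : LevelHyp2 M q p r) : KummerAt M q p := by
  intro n A hA τ hτ u hu hdiv
  obtain ⟨D, hD, u₀, hu₀, h₁, h₂⟩ := hmodel M q p r hL n A hA τ hτ u hu hdiv
  haveI := hD.icl₁
  haveI := hD.icl₂
  haveI := hD.noeth₁
  haveI := hD.noeth₂
  have hu₀0 : u₀ ≠ 0 := by
    rintro rfl
    exact hu (by rw [← hu₀, map_zero])
  have hτu₀0 : D.τ₀ u₀ ≠ 0 := (map_ne_zero D.τ₀).2 hu₀0
  set v₀ : D.F₀ := D.τ₀ u₀ / u₀ with hv₀
  have hv₀0 : v₀ ≠ 0 := div_ne_zero hτu₀0 hu₀0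
  have hval := hD.τ_val u₀ hu₀0
  have hc₁ : ∀ x : Ideal ↥D.C₁, x.IsMaximal → algebraMap D.A₀ ↥D.C₁ D.ϖ ∈ x →
      ∃ g : D.F₀, g ≠ 0 ∧ ∃ a b : ↥D.C₁, a ∉ x ∧ b ∉ x ∧ v₀ * (b : D.F₀) = (a : D.F₀) * g ^ (p ^ n) :=
    fun x hx hϖx => hloc D.A₀ D.F₀ D.ϖ hD.irr (p ^ n) D.C₁ D.O hD.frac₁ hD.le₁ hD.sat₁ D.τ₀
      hD.τ_mem₁ hD.τ_mem hD.τ_sub hD.τ_unif hD.τ_val x hx hϖx u₀ hu₀0 (h₁ x hx hϖx)
  have hc₂ : ∀ x : Ideal ↥D.C₂, x.IsMaximal → algebraMap D.A₀ ↥D.C₂ D.ϖ ∈ x →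
      ∃ g : D.F₀, g ≠ 0 ∧ ∃ a b : ↥D.C₂, a ∉ x ∧ b ∉ x ∧ v₀ * (b : D.F₀) = (a : D.F₀) * g ^ (p ^ n) :=
    fun x hx hϖx => hloc D.A₀ D.F₀ D.ϖ hD.irr (p ^ n) D.C₂ D.O hD.frac₂ hD.le₂ hD.sat₂ D.τ₀
      hD.τ_mem₂ hD.τ_mem hD.τ_sub hD.τ_unif hD.τ_val x hx hϖx u₀ hu₀0 (h₂ x hx hϖx)
  have hε : v₀ / (1 : D.F₀) ^ (p ^ n) ∈ D.O := by
    rw [one_pow, div_one]
    exact hval.1
  have hε' : (v₀ / (1 : D.F₀) ^ (p ^ n))⁻¹ ∈ D.O := by
    rw [one_pow, div_one, hv₀, inv_div]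
    exact hval.2
  obtain ⟨h, hh0, hh₁, hh₂⟩ := Fermat.Agent.S34.H10.exists_pow_mul_mem_of_cartier D.ϖ hD.irr
    (p ^ n) hD.unit_m D.j hD.j_ne D.C₁ D.C₂ hD.j_mem₁ hD.j_mem₂ hD.fin₁ hD.frac₁ hD.glue D.O
    hD.le₁ hD.le₂ hD.j_inv_mem hD.not_unit hD.root hD.sat₁ hD.sat₂ hD.const D.τ₀
    (fun c hc => (hD.τ_mem₁ c).2 hc) (fun c hc => (hD.τ_mem₂ c).2 hc) hD.τ_mem hD.τ_sub
    v₀ 1 hv₀0 one_ne_zero hε hε' hc₁ hc₂
  obtain ⟨c, hc⟩ := hD.ι_const _ hh₁ hh₂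
  have hιh : D.ι h ≠ 0 := (map_ne_zero D.ι).2 hh0
  have hιv : D.ι v₀ = gal M τ u / u := by
    rw [hv₀, map_div₀, hD.ι_τ, hu₀]
  have hτv₀0 : D.τ₀ v₀ ≠ 0 := (map_ne_zero D.τ₀).2 hv₀0
  have hιτv : D.ι (D.τ₀ v₀ / v₀) = gal M τ (gal M τ u / u) / (gal M τ u / u) := by
    rw [map_div₀ D.ι, hD.ι_τ, hιv]
  have hkey : gal M τ (gal M τ u / u) / (gal M τ u / u) * D.ι h ^ (p ^ n) =
      algebraMap Qb (FF M) c := by
    rw [← hc, map_mul D.ι, map_pow D.ι, hιτv]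
  have hlhs0 : gal M τ (gal M τ u / u) / (gal M τ u / u) ≠ 0 := by
    rw [← hιτv]
    exact (map_ne_zero D.ι).2 (div_ne_zero hτv₀0 hv₀0)
  refine ⟨c, (D.ι h)⁻¹, ?_, inv_ne_zero hιh, ?_⟩
  · rintro rfl
    rw [map_zero] at hkey
    exact mul_ne_zero hlhs0 (pow_ne_zero _ hιh) hkey
  · rw [← hkey, inv_pow, mul_assoc, mul_inv_cancel₀ (pow_ne_zero _ hιh), mul_one]

/-- **The root of the skeleton, second form.** -/
theorem geoTarget2_of_leaves (hdict : DictStatement) (hloc : LocalAbsStatement)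
    (hmodel : ModelStatement2) : GeoTarget2 := by
  intro M q p r hM hq hp hqp hqM hq2 hr hr12 hrM hr2 hrq hrp hbig h2 h3
  exact hdict M q p hM hq hp (kummerAt_of_leaves2 hloc hmodel M q p r
    ⟨⟨hM, hq, hp, hqp, hqM, hq2, hr, hr12, hrM, hr2, hrq, hrp, hbig⟩, h2, h3⟩)

/-- The binding interface of the S34 top from the three leaves. -/
theorem b1Statement_of_leaves2 (hdict : DictStatement) (hloc : LocalAbsStatement)
    (hmodel : ModelStatement2) (N q p : ℕ) [NeZero N] (hq : q.Prime) (hp : p.Prime)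
    (hqp : q ≠ p) (hqN : q ∣ N) (hq2 : ¬ q ^ 2 ∣ N) : B1Statement N q p :=
  b1Statement_of_geoTarget2 (geoTarget2_of_leaves hdict hloc hmodel) N q p hq hp hqp hqN hq2

end Fermat.Agent.S34.H27
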