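/-
S34 / Program B' (helper27): item (G1) of the interface audit — the Gauss valuation ring of the
modular function field `ℚ̄(j(q^d) : d ∣ N)` at EVERY level `N`, in particular when the residue
characteristic divides `N`.

* `exists_min_family` — discreteness: a family of elements of a finitely generated `ℤ`-submodule
  of `ℚ̄`, not all zero, has a member of minimal valuation (`A ∩ K₀` is noetherian for a number
  field `K₀`);
* `exists_scale_of_coeff` — primitive scaling of a Laurent series whose coefficients lie in a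
  finitely generated `ℤ`-module;
* `hScale_all`, `hScale_bar_all` — the scaling hypothesis `HScale` of the landed Gauss package
  (`S18/H66`) for all `N`;
* `gaussOAll A N hA : ValuationSubring (modularFunctionFieldBar N)` and its residue map
  `gaussResAll` into `k((q))`, with the standard consequences (kernel = nonunits, `O ∩ ℚ̄ = A`,
  value group of `O` = value group of `A`).
-/
import Mathlib
import Fermat.Agent.S18.H21.ComapDVR
import Fermat.Agent.S18.H66.GaussRing
import Fermat.Prelude.Def_ModularCurve_HeckeOperator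
import Fermat.Prelude.Thm_ModularCurve_coeffMap_qExpand

set_option autoImplicit false
set_option linter.style.haveILetI false

noncomputable section

namespace Fermat.Agent.S34.H27

open ModularCurve HahnSeries IntermediateField
open Fermat.Agent.S18.H66 (Kb incl redA HScale gaussRing gaussResHom)

section Discrete

/-- **Discreteness.** A family of elements of a finitely generated `ℤ`-submodule of `ℚ̄`, not all
zero, has a nonzero member dividing all the others in the valuation ring `A ≠ ⊤`. -/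
theorem exists_min_family (A : ValuationSubring Kb) (hA : A ≠ ⊤) {ι : Type*} (Z : Finset Kb)
    (a : ι → Kb) (ha : ∀ n, a n ∈ Submodule.span ℤ (Z : Set Kb)) (hne : ∃ n, a n ≠ 0) :
    ∃ n₀, a n₀ ≠ 0 ∧ ∀ n, a n / a n₀ ∈ A := by
  classical
  let K₀ : IntermediateField ℚ Kb := IntermediateField.adjoin ℚ (Z : Set Kb)
  haveI : FiniteDimensional ℚ K₀ := Fermat.Agent.S18.H21.finiteDimensional_adjoin_finset Z
  let A₀ : ValuationSubring K₀ := A.comap (algebraMap K₀ Kb)
  haveI : IsDiscreteValuationRing A₀ :=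
    Fermat.Agent.S18.H21.isDiscreteValuationRing_comap_qbar A hA K₀
  let φ : A₀ →+* Kb := (algebraMap K₀ Kb).comp A₀.subtype
  letI : Module A₀ Kb := Module.compHom Kb φ
  have hsmul : ∀ (r : A₀) (x : Kb), r • x = φ r * x := fun r x => rfl
  have hφA : ∀ r : A₀, φ r ∈ A := fun r => r.2
  let M₀ : Submodule A₀ Kb := Submodule.span A₀ (Z : Set Kb)
  haveI : IsNoetherian A₀ M₀ := isNoetherian_span_of_finite A₀ Z.finite_toSet
  have haM : ∀ n, a n ∈ M₀ := by
    intro n
    refine Submodule.span_induction (p := fun x _ => x ∈ M₀) ?_ ?_ ?_ ?_ (ha n)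
    · intro x hx
      exact Submodule.subset_span hx
    · exact M₀.zero_mem
    · intro x y _ _ hx hy
      exact M₀.add_mem hx hy
    · intro k x _ hx
      have h1 : k • x = (k : A₀) • x := by
        rw [hsmul, zsmul_eq_mul, map_intCast]
      rw [h1]
      exact M₀.smul_mem _ hx
  let M' : Submodule A₀ Kb := Submodule.span A₀ (Set.range a)
  have hM'le : M' ≤ M₀ := Submodule.span_le.mpr (by rintro _ ⟨n, rfl⟩; exact haM n)
  have hfg : M'.FG := by
    haveI : IsNoetherian A₀ M' := isNoetherian_of_le hM'le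
    exact Module.Finite.iff_fg.mp inferInstance
  obtain ⟨T, hTsub, hTspan⟩ := (Submodule.fg_span_iff_fg_span_finset_subset (Set.range a)).mp hfg
  obtain ⟨n₁, hn₁⟩ := hne
  have hn₁M : a n₁ ∈ Submodule.span A₀ (T : Set Kb) := by
    rw [← hTspan]
    exact Submodule.subset_span ⟨n₁, rfl⟩
  have hTne : T.Nonempty := by
    by_contra hemp
    rw [Finset.not_nonempty_iff_eq_empty] at hemp
    rw [hemp, Finset.coe_empty, Submodule.span_empty, Submodule.mem_bot] at hn₁M
    exact hn₁ hn₁M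
  obtain ⟨t₀, ht₀T, ht₀max⟩ := Finset.exists_max_image T (fun t => A.valuation t) hTne
  have ht₀ : t₀ ≠ 0 := by
    intro h0
    have hall : ∀ t ∈ T, t = 0 := by
      intro t ht
      have h1 := ht₀max t ht
      rw [h0, map_zero] at h1
      exact (map_eq_zero _).mp (le_antisymm h1 zero_le)
    have : Submodule.span A₀ (T : Set Kb) = ⊥ := by
      rw [Submodule.span_eq_bot]
      exact fun t ht => hall t ht
    rw [this, Submodule.mem_bot] at hn₁M
    exact hn₁ hn₁M
  let S : Submodule A₀ Kb :=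
    { carrier := {x | x / t₀ ∈ A}
      zero_mem' := by
        show (0 : Kb) / t₀ ∈ A
        rw [zero_div]
        exact A.zero_mem
      add_mem' := by
        intro x y hx hy
        show (x + y) / t₀ ∈ A
        rw [add_div]
        exact A.add_mem _ _ hx hy
      smul_mem' := by
        intro r x hx
        show (r • x) / t₀ ∈ A
        rw [hsmul, mul_div_assoc]
        exact A.mul_mem _ _ (hφA r) hx }
  have hTS : Submodule.span A₀ (T : Set Kb) ≤ S := by
    rw [Submodule.span_le]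
    intro t ht
    show t / t₀ ∈ A
    rw [← A.valuation_le_one_iff, map_div₀]
    have hpos : 0 < A.valuation t₀ := zero_lt_iff.mpr ((map_ne_zero _).mpr ht₀)
    exact (div_le_one₀ hpos).mpr (ht₀max t ht)
  obtain ⟨n₀, hn₀⟩ := hTsub ht₀T
  refine ⟨n₀, by rw [hn₀]; exact ht₀, fun n => ?_⟩
  rw [hn₀]
  have : a n ∈ Submodule.span A₀ (T : Set Kb) := by
    rw [← hTspan]
    exact Submodule.subset_span ⟨n, rfl⟩
  exact hTS this

/-- **Primitive scaling** of a Laurent series over `ℚ̄` whose coefficients lie in a finitely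
generated `ℤ`-module: it is a nonzero constant times an `A`-integral series with nonzero
reduction. -/
theorem exists_scale_of_coeff (A : ValuationSubring Kb) (hA : A ≠ ⊤) (Z : Finset Kb)
    (Y : LaurentSeries Kb) (hY : ∀ n, Y.coeff n ∈ Submodule.span ℤ (Z : Set Kb)) (hY0 : Y ≠ 0) :
    ∃ d : Kb, d ≠ 0 ∧ ∃ y : LaurentSeries A, redA A y ≠ 0 ∧ Y = HahnSeries.C d * incl A y := by
  have hne : ∃ n, Y.coeff n ≠ 0 := by
    by_contra h
    rw [not_exists] at h
    apply hY0
    ext n
    simpa using h n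
  obtain ⟨n₀, hn₀, hdiv⟩ := exists_min_family A hA Z (fun n => Y.coeff n) hY hne
  let y : LaurentSeries A :=
    { coeff := fun n => ⟨Y.coeff n / Y.coeff n₀, hdiv n⟩
      isPWO_support' := by
        refine Y.isPWO_support.mono ?_
        intro n hn h0
        apply hn
        show (⟨Y.coeff n / Y.coeff n₀, hdiv n⟩ : A) = 0
        exact Subtype.ext (show Y.coeff n / Y.coeff n₀ = 0 by rw [h0, zero_div]) }
  refine ⟨Y.coeff n₀, hn₀, y, ?_, ?_⟩
  · intro h0
    have h1 := congrArg (fun z => z.coeff n₀) h0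
    have h2 : (redA A y).coeff n₀ = IsLocalRing.residue A (y.coeff n₀) := rfl
    have h3 : y.coeff n₀ = 1 := Subtype.ext (div_self hn₀)
    simp only [h2, h3, map_one, HahnSeries.coeff_zero] at h1
    exact one_ne_zero h1
  · ext n
    rw [HahnSeries.C_mul_eq_smul, HahnSeries.coeff_smul]
    have h2 : (incl A y).coeff n = Y.coeff n / Y.coeff n₀ := rfl
    rw [h2, smul_eq_mul, mul_div_cancel₀ _ hn₀]

end Discrete

section Repr

variable (N : ℕ) [NeZero N]

omit [NeZero N] in
/-- Monomials in the `j(q^d)` have integral `q`-expansions. -/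
theorem exists_int_of_mem_closure {m : LaurentSeries Kb}
    (hm : m ∈ Submonoid.closure (divisorExpansionsC Kb N)) :
    ∃ u : LaurentSeries ℤ, m = coeffMap (Int.castRingHom Kb) u := by
  induction hm using Submonoid.closure_induction with
  | mem y hy =>
    obtain ⟨d, hd, -, rfl⟩ := hy
    exact ⟨qExpand ℤ d (jqModC ℤ), (coeffMap_jqNModC (Int.castRingHom Kb) d).symm⟩
  | one => exact ⟨1, (map_one _).symm⟩
  | mul y z _ _ hy hz =>
    obtain ⟨u, rfl⟩ := hy
    obtain ⟨v, rfl⟩ := hz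
    exact ⟨u * v, (map_mul _ _ _).symm⟩

omit [NeZero N] in
/-- The coefficients of an element of the `ℚ̄`-algebra generated by the `j(q^d)` lie in a finitely
generated `ℤ`-module. -/
theorem exists_finset_coeff {r : LaurentSeries Kb}
    (hr : r ∈ Algebra.adjoin Kb (divisorExpansionsC Kb N)) :
    ∃ Z : Finset Kb, ∀ n, r.coeff n ∈ Submodule.span ℤ (Z : Set Kb) := by
  classical
  have hr' := hr
  rw [← Subalgebra.mem_toSubmodule, Algebra.adjoin_eq_span] at hr'
  clear hr
  induction hr' using Submodule.span_induction with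
  | mem m hm =>
    obtain ⟨u, rfl⟩ := exists_int_of_mem_closure N hm
    refine ⟨{1}, fun n => ?_⟩
    have h1 : (coeffMap (Int.castRingHom Kb) u).coeff n = (u.coeff n) • (1 : Kb) := by
      rw [zsmul_eq_mul, mul_one]
      rfl
    rw [h1]
    exact Submodule.smul_mem _ _ (Submodule.subset_span (by simp))
  | zero => exact ⟨∅, fun n => by simp⟩
  | add x y _ _ hx hy =>
    obtain ⟨Z₁, h₁⟩ := hx
    obtain ⟨Z₂, h₂⟩ := hy
    refine ⟨Z₁ ∪ Z₂, fun n => ?_⟩
    rw [HahnSeries.coeff_add]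
    refine Submodule.add_mem _ ?_ ?_
    · exact Submodule.span_mono (by simp) (h₁ n)
    · exact Submodule.span_mono (by simp) (h₂ n)
  | smul c x _ hx =>
    obtain ⟨Z, h⟩ := hx
    refine ⟨Z.image (fun z => c * z), fun n => ?_⟩
    rw [Finset.coe_image, Algebra.smul_def, ← Fermat.Agent.S18.H66.C_eq_algebraMap,
      HahnSeries.C_mul_eq_smul, HahnSeries.coeff_smul, smul_eq_mul]
    exact Submodule.apply_mem_span_image_of_mem_span (LinearMap.mulLeft ℤ c) (h n)

end Repr

section HScaleAll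

variable (A : ValuationSubring Kb) (N : ℕ) [NeZero N]

omit [NeZero N] in
/-- **(G1)** The scaling hypothesis for the modular function field `ℚ̄(j(q^d) : d ∣ N)` at
EVERY level `N` (no hypothesis on the residue characteristic). -/
theorem hScale_all (hA : A ≠ ⊤) :
    HScale A (modularFunctionFieldFullC Kb N) Set.univ := by
  intro f hf hf0
  obtain ⟨r, hr, s, hs, hfrs⟩ := IntermediateField.mem_adjoin_iff_div.mp hf
  have hs0 : s ≠ 0 := by
    intro h
    rw [h, div_zero] at hfrs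
    exact hf0 hfrs
  have hr0 : r ≠ 0 := by
    intro h
    rw [h, zero_div] at hfrs
    exact hf0 hfrs
  obtain ⟨Z₁, hZ₁⟩ := exists_finset_coeff N hr
  obtain ⟨Z₂, hZ₂⟩ := exists_finset_coeff N hs
  obtain ⟨d₁, hd₁, y₁, hy₁, hry⟩ := exists_scale_of_coeff A hA Z₁ r hZ₁ hr0
  obtain ⟨d₂, hd₂, y₂, hy₂, hsy⟩ := exists_scale_of_coeff A hA Z₂ s hZ₂ hs0
  have hCC : (HahnSeries.C d₂⁻¹ : LaurentSeries Kb) * HahnSeries.C d₂ = 1 := by
    rw [← map_mul, inv_mul_cancel₀ hd₂, map_one]
  have hy₂eq : incl A y₂ = HahnSeries.C d₂⁻¹ * s := by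
    rw [hsy, ← mul_assoc, hCC, one_mul]
  have hsF : s ∈ modularFunctionFieldFullC Kb N :=
    IntermediateField.algebra_adjoin_le_adjoin Kb _ hs
  refine ⟨d₁ * d₂⁻¹, mul_ne_zero hd₁ (inv_ne_zero hd₂), y₁, y₂, hy₁, hy₂, Set.mem_univ _,
    Set.mem_univ _, ?_, ?_⟩
  · rw [hy₂eq]
    exact mul_mem (Fermat.Agent.S18.H66.C_mem _ _) hsF
  · rw [hy₂eq, hfrs, map_mul]
    have : r / s * (HahnSeries.C d₂⁻¹ * s) = HahnSeries.C d₂⁻¹ * r := by
      field_simp
    rw [this, hry]
    ring

/-- The scaling hypothesis for `modularFunctionFieldBar N`, every `N`. -/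
theorem hScale_bar_all (hA : A ≠ ⊤) :
    HScale A (modularFunctionFieldBar N) Set.univ := by
  rw [Fermat.Agent.S18.H66.modularFunctionFieldBar_eq_fullC]
  exact hScale_all A N hA

end HScaleAll

section Exports

open Fermat.Agent.S18.H66 (gaussRes gaussRes_eq gaussRes_incl isGaussInt_incl
  gaussResHom_eq_zero_iff mem_nonunits_gaussRing_iff algebraMap_mem_gaussRing_iff exists_scale)

variable (A : ValuationSubring Kb) (N : ℕ) [NeZero N]

/-- **The Gauss valuation ring** of the function field of `X₀(N)` over `ℚ̄`, at EVERY level `N`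
(`f = Y₁ / Y₂`, `Y₁, Y₂ ∈ A((q))`, `Y₂ ∈ F`, `Ȳ₂ ≠ 0`). -/
def gaussOAll (hA : A ≠ ⊤) : ValuationSubring ↥(modularFunctionFieldBar N) :=
  gaussRing A (modularFunctionFieldBar N) (hScale_bar_all A N hA)

theorem mem_gaussOAll_iff (hA : A ≠ ⊤) (f : ↥(modularFunctionFieldBar N)) :
    f ∈ gaussOAll A N hA ↔
      ∃ y₁ y₂ : LaurentSeries A, redA A y₂ ≠ 0 ∧ incl A y₂ ∈ modularFunctionFieldBar N ∧
        (f : LaurentSeries Kb) * incl A y₂ = incl A y₁ := Iff.rfl

/-- At a level prime to the residue characteristic this is the landed Gauss ring `gaussO`. -/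
theorem gaussOAll_eq_gaussO {ℓ : ℕ} [Fact ℓ.Prime] (hA : A ≠ ⊤) (hA' : A.LiesOverPrime ℓ)
    (hℓN : ¬ ℓ ∣ N) : gaussOAll A N hA = Fermat.Agent.S18.H66.gaussO A N hA' hℓN := rfl

/-- **The residue map** of the Gauss ring, with values in `k((q))`. -/
def gaussResAll (hA : A ≠ ⊤) :
    gaussOAll A N hA →+* LaurentSeries (IsLocalRing.ResidueField A) :=
  gaussResHom (hScale_bar_all A N hA)

/-- Computation of the residue from a presentation `f = Y₁ / Y₂`. -/
theorem gaussResAll_eq (hA : A ≠ ⊤) (f : gaussOAll A N hA) {y₁ y₂ : LaurentSeries A}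
    (hy : redA A y₂ ≠ 0) (hyF : incl A y₂ ∈ modularFunctionFieldBar N)
    (hfy : ((f : ↥(modularFunctionFieldBar N)) : LaurentSeries Kb) * incl A y₂ = incl A y₁) :
    gaussResAll A N hA f = redA A y₁ / redA A y₂ :=
  gaussRes_eq hy hyF hfy

/-- `A`-integral elements of `F` lie in the Gauss ring. -/
theorem integral_mem_gaussOAll (hA : A ≠ ⊤) (y : LaurentSeries A)
    (hy : incl A y ∈ modularFunctionFieldBar N) :
    (⟨incl A y, hy⟩ : ↥(modularFunctionFieldBar N)) ∈ gaussOAll A N hA :=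
  isGaussInt_incl y

/-- On `A`-integral elements the residue map is the coefficientwise reduction. -/
theorem gaussResAll_integral (hA : A ≠ ⊤) (y : LaurentSeries A)
    (hy : incl A y ∈ modularFunctionFieldBar N) :
    gaussResAll A N hA ⟨⟨incl A y, hy⟩, integral_mem_gaussOAll A N hA y hy⟩ = redA A y :=
  gaussRes_incl y

/-- The kernel of the residue map is the maximal ideal. -/
theorem gaussResAll_eq_zero_iff (hA : A ≠ ⊤) (f : gaussOAll A N hA) :
    gaussResAll A N hA f = 0 ↔ ¬ IsUnit f :=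
  gaussResHom_eq_zero_iff (hScale_bar_all A N hA) f

/-- Nonunits of the Gauss ring in terms of presentations. -/
theorem mem_nonunits_gaussOAll_iff (hA : A ≠ ⊤) (f : ↥(modularFunctionFieldBar N)) :
    f ∈ (gaussOAll A N hA).nonunits ↔
      ∃ y₁ y₂ : LaurentSeries A, redA A y₁ = 0 ∧ redA A y₂ ≠ 0 ∧
        incl A y₂ ∈ modularFunctionFieldBar N ∧
        (f : LaurentSeries Kb) * incl A y₂ = incl A y₁ :=
  mem_nonunits_gaussRing_iff (hScale_bar_all A N hA) f

/-- `O ∩ ℚ̄ = A`. -/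
theorem algebraMap_mem_gaussOAll_iff (hA : A ≠ ⊤) (a : Kb) :
    algebraMap Kb ↥(modularFunctionFieldBar N) a ∈ gaussOAll A N hA ↔ a ∈ A :=
  algebraMap_mem_gaussRing_iff (hScale_bar_all A N hA) a

/-- The value group of `O` is that of `A`: every nonzero function is a constant times a unit
of `O` (ramification index one over `A`). -/
theorem exists_scale_gaussOAll (hA : A ≠ ⊤) (f : ↥(modularFunctionFieldBar N)) (hf : f ≠ 0) :
    ∃ c : Kb, c ≠ 0 ∧ algebraMap Kb ↥(modularFunctionFieldBar N) c * f ∈ gaussOAll A N hA ∧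
      (algebraMap Kb ↥(modularFunctionFieldBar N) c * f)⁻¹ ∈ gaussOAll A N hA :=
  exists_scale (hScale_bar_all A N hA) f hf

end Exports

section Comap

open Fermat.Agent.S18.H66 (gaussRes_eq)

/-- A field embedding which maps a valuation ring into another one, and nonunits to nonunits,
pulls the second valuation ring back to the first. -/
theorem comap_eq_of_map_le {F₁ F₂ : Type*} [Field F₁] [Field F₂] (φ : F₁ →+* F₂)
    (O₁ : ValuationSubring F₁) (O₂ : ValuationSubring F₂)
    (h1 : ∀ f ∈ O₁, φ f ∈ O₂) (h2 : ∀ f ∈ O₁.nonunits, φ f ∈ O₂.nonunits) :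
    O₂.comap φ = O₁ := by
  ext f
  rw [ValuationSubring.mem_comap]
  constructor
  · intro hf
    by_contra hfO
    have hf0 : f ≠ 0 := fun h => hfO (h ▸ O₁.zero_mem)
    have hnu : f⁻¹ ∈ O₁.nonunits := O₁.inv_mem_nonunits_iff.mpr (Or.inr hfO)
    have h3 := h2 _ hnu
    rw [map_inv₀] at h3
    rcases O₂.inv_mem_nonunits_iff.mp h3 with h4 | h4
    · exact (map_ne_zero φ).mpr hf0 h4
    · exact h4 hf
  · exact h1 f

variable (A : ValuationSubring Kb) (N ℓ : ℕ) [NeZero N] [NeZero ℓ]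

/-- `α` maps `F_N` into `F_{N ℓ}` (as sets of Laurent series). -/
theorem mem_bar_mul_of_mem {z : LaurentSeries Kb} (hz : z ∈ modularFunctionFieldBar N) :
    z ∈ modularFunctionFieldBar (N * ℓ) := by
  have h := (heckeAlphaBar Kb N ℓ ⟨z, hz⟩).2
  rwa [coe_heckeAlphaBar] at h

omit [NeZero N] in
/-- `β` maps `F_N` into `F_{N ℓ}`: `z(q^ℓ) ∈ F_{N ℓ}`. -/
theorem qExpand_mem_bar_mul_of_mem {z : LaurentSeries Kb} (hz : z ∈ modularFunctionFieldBar N) :
    qExpand Kb ℓ z ∈ modularFunctionFieldBar (N * ℓ) :=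
  (heckeBetaBar Kb N ℓ ⟨z, hz⟩).2

omit [NeZero N] in
theorem incl_qExpand (y : LaurentSeries A) :
    incl A (qExpand A ℓ y) = qExpand Kb ℓ (incl A y) :=
  coeffMap_qExpand _ ℓ y

omit [NeZero N] in
theorem redA_qExpand (y : LaurentSeries A) :
    redA A (qExpand A ℓ y) = qExpand (IsLocalRing.ResidueField A) ℓ (redA A y) :=
  coeffMap_qExpand _ ℓ y

/-- **`O_{N ℓ} ∩ α(F_N) = O_N`**: the Gauss ring of level `N ℓ` lies over the Gauss ring of
level `N` along the inclusion `α`. -/
theorem gaussOAll_comap_alpha (hA : A ≠ ⊤) :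
    (gaussOAll A (N * ℓ) hA).comap (heckeAlphaBar Kb N ℓ : _ →+* _) = gaussOAll A N hA := by
  refine comap_eq_of_map_le _ _ _ ?_ ?_
  · rintro f ⟨y₁, y₂, hy, hyF, hfy⟩
    exact ⟨y₁, y₂, hy, mem_bar_mul_of_mem N ℓ hyF, by
      rw [RingHom.coe_coe, coe_heckeAlphaBar]; exact hfy⟩
  · intro f hf
    obtain ⟨y₁, y₂, hy₁, hy, hyF, hfy⟩ := (mem_nonunits_gaussOAll_iff A N hA f).mp hf
    exact (mem_nonunits_gaussOAll_iff A (N * ℓ) hA _).mpr
      ⟨y₁, y₂, hy₁, hy, mem_bar_mul_of_mem N ℓ hyF, by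
        rw [RingHom.coe_coe, coe_heckeAlphaBar]; exact hfy⟩

/-- **`β⁻¹(O_{N ℓ}) = O_N`**: the Gauss ring of level `N ℓ` lies over the Gauss ring of
level `N` along `β : f(q) ↦ f(q^ℓ)` as well. -/
theorem gaussOAll_comap_beta (hA : A ≠ ⊤) :
    (gaussOAll A (N * ℓ) hA).comap (heckeBetaBar Kb N ℓ : _ →+* _) = gaussOAll A N hA := by
  have hne : ∀ y₂ : LaurentSeries A, redA A y₂ ≠ 0 → redA A (qExpand A ℓ y₂) ≠ 0 := by
    intro y₂ hy h0
    rw [redA_qExpand] at h0
    exact hy (qExpand_injective ℓ (by rw [h0, map_zero]))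
  refine comap_eq_of_map_le _ _ _ ?_ ?_
  · rintro f ⟨y₁, y₂, hy, hyF, hfy⟩
    refine ⟨qExpand A ℓ y₁, qExpand A ℓ y₂, hne y₂ hy, ?_, ?_⟩
    · rw [incl_qExpand]
      exact qExpand_mem_bar_mul_of_mem N ℓ hyF
    · rw [RingHom.coe_coe, coe_heckeBetaBar, incl_qExpand, incl_qExpand, ← map_mul, hfy]
  · intro f hf
    obtain ⟨y₁, y₂, hy₁, hy, hyF, hfy⟩ := (mem_nonunits_gaussOAll_iff A N hA f).mp hf
    refine (mem_nonunits_gaussOAll_iff A (N * ℓ) hA _).mpr
      ⟨qExpand A ℓ y₁, qExpand A ℓ y₂, ?_, hne y₂ hy, ?_, ?_⟩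
    · rw [redA_qExpand, hy₁, map_zero]
    · rw [incl_qExpand]
      exact qExpand_mem_bar_mul_of_mem N ℓ hyF
    · rw [RingHom.coe_coe, coe_heckeBetaBar, incl_qExpand, incl_qExpand, ← map_mul, hfy]

/-- `α` maps the Gauss ring of level `N` into that of level `N ℓ`. -/
theorem alpha_mem_gaussOAll (hA : A ≠ ⊤) {f : ↥(modularFunctionFieldBar N)}
    (hf : f ∈ gaussOAll A N hA) : heckeAlphaBar Kb N ℓ f ∈ gaussOAll A (N * ℓ) hA := by
  have h : f ∈ (gaussOAll A (N * ℓ) hA).comap (heckeAlphaBar Kb N ℓ : _ →+* _) := by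
    rw [gaussOAll_comap_alpha]; exact hf
  exact ValuationSubring.mem_comap.mp h

/-- `β` maps the Gauss ring of level `N` into that of level `N ℓ`. -/
theorem beta_mem_gaussOAll (hA : A ≠ ⊤) {f : ↥(modularFunctionFieldBar N)}
    (hf : f ∈ gaussOAll A N hA) : heckeBetaBar Kb N ℓ f ∈ gaussOAll A (N * ℓ) hA := by
  have h : f ∈ (gaussOAll A (N * ℓ) hA).comap (heckeBetaBar Kb N ℓ : _ →+* _) := by
    rw [gaussOAll_comap_beta]; exact hf
  exact ValuationSubring.mem_comap.mp h

/-- The residue of `α f` is the residue of `f`. -/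
theorem gaussResAll_alpha (hA : A ≠ ⊤) (f : ↥(modularFunctionFieldBar N))
    (hf : f ∈ gaussOAll A N hA) :
    gaussResAll A (N * ℓ) hA ⟨heckeAlphaBar Kb N ℓ f, alpha_mem_gaussOAll A N ℓ hA hf⟩ =
      gaussResAll A N hA ⟨f, hf⟩ := by
  obtain ⟨y₁, y₂, hy, hyF, hfy⟩ := hf
  rw [gaussResAll_eq A N hA ⟨f, ⟨y₁, y₂, hy, hyF, hfy⟩⟩ hy hyF hfy]
  exact gaussRes_eq hy (mem_bar_mul_of_mem N ℓ hyF) (by rw [coe_heckeAlphaBar]; exact hfy)

/-- The residue of `β f` is `res(f)(q^ℓ)`. -/
theorem gaussResAll_beta (hA : A ≠ ⊤) (f : ↥(modularFunctionFieldBar N))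
    (hf : f ∈ gaussOAll A N hA) :
    gaussResAll A (N * ℓ) hA ⟨heckeBetaBar Kb N ℓ f, beta_mem_gaussOAll A N ℓ hA hf⟩ =
      qExpand (IsLocalRing.ResidueField A) ℓ (gaussResAll A N hA ⟨f, hf⟩) := by
  obtain ⟨y₁, y₂, hy, hyF, hfy⟩ := hf
  rw [gaussResAll_eq A N hA ⟨f, ⟨y₁, y₂, hy, hyF, hfy⟩⟩ hy hyF hfy, map_div₀,
    ← redA_qExpand, ← redA_qExpand]
  refine gaussRes_eq ?_ ?_ ?_
  · intro h0
    rw [redA_qExpand] at h0
    exact hy (qExpand_injective ℓ (by rw [h0, map_zero]))
  · rw [incl_qExpand]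
    exact qExpand_mem_bar_mul_of_mem N ℓ hyF
  · rw [coe_heckeBetaBar, incl_qExpand, incl_qExpand, ← map_mul, hfy]

end Comap

end Fermat.Agent.S34.H27
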